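/-
S14 package A2 (Kummer generator), core (helper69): a Lagrange resolvent over `ℚ̄`.

Let `ζ` be a primitive `p`-th root of unity in `Ω = AlgebraicClosure ℚ` and let
`b : Gal(Ω/ℚ) → ZMod p` be additive on the stabiliser of `ζ` and trivial on the fixing subgroup
of a finite-dimensional subfield `M ∋ ζ`.  Then there is `θ ≠ 0`, integral over `ℤ`, with
`τ θ = ζ ^ (b τ) * θ` for all `τ` fixing `ζ`.
-/
import Mathlib

set_option autoImplicit false
set_option linter.unusedSectionVars false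

namespace Fermat.Agent.S14.H69

open IntermediateField

local notation "Ω" => AlgebraicClosure ℚ
local notation "Γ" => (AlgebraicClosure ℚ ≃ₐ[ℚ] AlgebraicClosure ℚ)

/-- `AlgebraicClosure ℚ` is algebraic over `ℚ` (for the `ℚ`-algebra structure that the frozen
statements elaborate with, `DivisionRing.toRatAlgebra`). -/
theorem isAlgebraic_ratBar : Algebra.IsAlgebraic ℚ Ω :=
  AlgebraicClosure.isAlgebraic ℚ

/-- `AlgebraicClosure ℚ` is Galois over `ℚ` (same remark on the algebra structure). -/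
theorem isGalois_ratBar : IsGalois ℚ Ω :=
  (inferInstance : @IsGalois ℚ _ Ω _ (AlgebraicClosure.instAlgebra ℚ))

variable {p : ℕ} [Fact p.Prime]

/-- `ζ ^ k` for `k : ZMod p`. -/
noncomputable def zp (ζ : Ω) (k : ZMod p) : Ω := ζ ^ k.val

section zp

variable {ζ : Ω}

theorem zp_zero : zp (p := p) ζ 0 = 1 := by simp [zp]

theorem zp_add (hζ : ζ ^ p = 1) (k l : ZMod p) : zp ζ (k + l) = zp ζ k * zp ζ l := by
  unfold zp
  rw [ZMod.val_add, ← pow_add, ← pow_eq_pow_mod _ hζ]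

theorem zp_ne_zero (hζ : ζ ^ p = 1) (k : ZMod p) : zp ζ k ≠ 0 := by
  have h0 : ζ ≠ 0 := by
    rintro rfl
    rw [zero_pow (Fact.out : p.Prime).ne_zero] at hζ
    exact zero_ne_one hζ
  exact pow_ne_zero _ h0

theorem zp_pow_p (hζ : ζ ^ p = 1) (k : ZMod p) : zp ζ k ^ p = 1 := by
  unfold zp
  rw [← pow_mul, mul_comm, pow_mul, hζ, one_pow]

theorem zp_neg_mul (hζ : ζ ^ p = 1) (k : ZMod p) : zp ζ (-k) * zp ζ k = 1 := by
  rw [← zp_add hζ, neg_add_cancel, zp_zero]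

theorem zp_eq_one_iff (hζ : IsPrimitiveRoot ζ p) (k : ZMod p) : zp ζ k = 1 ↔ k = 0 := by
  unfold zp
  constructor
  · intro h
    have hd : p ∣ k.val := (hζ.pow_eq_one_iff_dvd _).mp h
    have hlt : k.val < p := ZMod.val_lt k
    have h0 : k.val = 0 := Nat.eq_zero_of_dvd_of_lt hd hlt
    exact (ZMod.val_eq_zero k).mp h0
  · rintro rfl
    simp

theorem map_zp_of_fix (σ : Γ) (h : σ ζ = ζ) (k : ZMod p) : σ (zp ζ k) = zp ζ k := by
  unfold zp
  rw [map_pow, h]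

/-- If `σ ζ = ζ ^ n` then `σ (ζ ^ k) = ζ ^ (n k)`. -/
theorem map_zp (hζ : ζ ^ p = 1) (σ : Γ) (n : ℕ) (h : σ ζ = ζ ^ n) (k : ZMod p) :
    σ (zp ζ k) = zp ζ ((n : ZMod p) * k) := by
  unfold zp
  rw [map_pow, h, ← pow_mul, pow_eq_pow_mod _ hζ]
  conv_rhs => rw [pow_eq_pow_mod _ hζ]
  congr 1
  have h1 : (((n : ZMod p) * k).val : ZMod p) = ((n * k.val : ℕ) : ZMod p) := by
    rw [ZMod.natCast_val, ZMod.cast_id', id, Nat.cast_mul, ZMod.natCast_val, ZMod.cast_id', id]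
  have h2 := (ZMod.natCast_eq_natCast_iff' _ _ p).mp h1
  rw [h2]

theorem zp_pow (hζ : ζ ^ p = 1) (k : ZMod p) (n : ℕ) : zp ζ k ^ n = zp ζ ((n : ZMod p) * k) := by
  unfold zp
  rw [← pow_mul, pow_eq_pow_mod _ hζ]
  conv_rhs => rw [pow_eq_pow_mod _ hζ]
  congr 1
  have h1 : (((n : ZMod p) * k).val : ZMod p) = ((k.val * n : ℕ) : ZMod p) := by
    rw [ZMod.natCast_val, ZMod.cast_id', id, Nat.cast_mul, ZMod.natCast_val, ZMod.cast_id', id,
      mul_comm]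
  have h2 := (ZMod.natCast_eq_natCast_iff' _ _ p).mp h1
  rw [h2]

end zp

section Extend

variable (M : IntermediateField ℚ Ω)

/-- Every embedding of a subfield of `Ω` into `Ω` extends to an automorphism of `Ω`. -/
theorem exists_extension (φ : M →ₐ[ℚ] Ω) : ∃ σ : Γ, ∀ x : M, σ x = φ x := by
  have : Algebra.IsAlgebraic ℚ Ω := isAlgebraic_ratBar
  have : Algebra.IsAlgebraic M Ω := Algebra.IsAlgebraic.tower_top (K := ℚ) M
  obtain ⟨ψ, hψ⟩ := IsAlgClosed.surjective_domRestrict_of_isAlgebraic (K := ℚ) (L := M)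
    (M := Ω) (E := Ω) φ
  have hbij : Function.Bijective ψ := Algebra.IsAlgebraic.algHom_bijective ψ
  refine ⟨AlgEquiv.ofBijective ψ hbij, fun x => ?_⟩
  have := congrArg (fun f : M →ₐ[ℚ] Ω => f x) hψ
  exact this

end Extend

section Core

/-- An integer multiple of an element of `Ω` is integral over `ℤ`. -/
theorem exists_int_mul_isIntegral (θ : Ω) : ∃ m : ℤ, m ≠ 0 ∧ IsIntegral ℤ ((m : Ω) * θ) := by
  have : Algebra.IsAlgebraic ℚ Ω := isAlgebraic_ratBar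
  have h1 : IsAlgebraic ℚ θ := Algebra.IsAlgebraic.isAlgebraic θ
  have h2 : IsAlgebraic ℤ θ := (IsFractionRing.isAlgebraic_iff ℤ ℚ Ω).mpr h1
  obtain ⟨m, hm, hint⟩ := h2.exists_integral_multiple
  refine ⟨m, hm, ?_⟩
  rwa [zsmul_eq_mul] at hint

/-- **Lagrange resolvent.**  See the file header. -/
theorem exists_resolvent {ζ : Ω} (hζ : IsPrimitiveRoot ζ p) (b : Γ → ZMod p)
    (hadd : ∀ σ τ : Γ, σ ζ = ζ → τ ζ = ζ → b (σ * τ) = b σ + b τ)
    (M : IntermediateField ℚ Ω) [FiniteDimensional ℚ M] (hζM : ζ ∈ M)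
    (hM : ∀ σ : Γ, (∀ x : M, σ x = x) → b σ = 0) :
    ∃ θ : Ω, θ ≠ 0 ∧ IsIntegral ℤ θ ∧ ∀ τ : Γ, τ ζ = ζ → τ θ = zp ζ (b τ) * θ := by
  classical
  have hζp : ζ ^ p = 1 := hζ.pow_eq_one
  -- the embeddings of `M` fixing `ζ`
  let I := {φ : M →ₐ[ℚ] Ω // φ ⟨ζ, hζM⟩ = ζ}
  choose ext hext using fun φ : M →ₐ[ℚ] Ω => exists_extension M φ
  have hextζ : ∀ φ : I, ext φ.1 ζ = ζ := fun φ => by
    have := hext φ.1 ⟨ζ, hζM⟩
    rw [φ.2] at this
    exact this
  let act : Γ → (M →ₐ[ℚ] Ω) → (M →ₐ[ℚ] Ω) := fun τ φ => (τ : Ω →ₐ[ℚ] Ω).comp φ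
  have hact : ∀ (τ : Γ) (φ : M →ₐ[ℚ] Ω) (x : M), act τ φ x = τ (φ x) := fun _ _ _ => rfl
  have key : ∀ τ : Γ, τ ζ = ζ → ∀ φ : I, b (ext (act τ φ.1)) = b τ + b (ext φ.1) := by
    intro τ hτ φ
    have h1 : ∀ x : M, ext (act τ φ.1) x = τ (ext φ.1 x) := fun x => by
      rw [hext, hext, hact]
    have hh : ∀ x : M, ((τ * ext φ.1)⁻¹ * ext (act τ φ.1)) x = x := fun x => by
      rw [AlgEquiv.mul_apply, h1 x, ← AlgEquiv.mul_apply τ, ← AlgEquiv.mul_apply, inv_mul_cancel,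
        AlgEquiv.one_apply]
    have h0 := hM _ hh
    have hτσζ : (τ * ext φ.1) ζ = ζ := by rw [AlgEquiv.mul_apply, hextζ φ, hτ]
    have hhζ : ((τ * ext φ.1)⁻¹ * ext (act τ φ.1)) ζ = ζ := hh ⟨ζ, hζM⟩
    have hdecomp : ext (act τ φ.1) = (τ * ext φ.1) * ((τ * ext φ.1)⁻¹ * ext (act τ φ.1)) := by
      group
    rw [hdecomp, hadd _ _ hτσζ hhζ, hadd τ _ hτ (hextζ φ), h0, add_zero]
  -- the permutation of `I` induced by `τ`
  have hmem : ∀ τ : Γ, τ ζ = ζ → ∀ φ : I, act τ φ.1 ⟨ζ, hζM⟩ = ζ := fun τ hτ φ => by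
    rw [hact, φ.2, hτ]
  let e : ∀ τ : Γ, τ ζ = ζ → I ≃ I := fun τ hτ =>
    { toFun := fun φ => ⟨act τ φ.1, hmem τ hτ φ⟩
      invFun := fun φ => ⟨act τ⁻¹ φ.1, hmem τ⁻¹ (by
        have := congrArg (τ⁻¹ : Γ) hτ
        rw [← AlgEquiv.mul_apply, inv_mul_cancel, AlgEquiv.one_apply] at this
        exact this.symm) φ⟩
      left_inv := fun φ => by
        apply Subtype.ext
        apply AlgHom.ext
        intro x
        show τ⁻¹ (τ (φ.1 x)) = φ.1 x
        rw [← AlgEquiv.mul_apply, inv_mul_cancel, AlgEquiv.one_apply]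
      right_inv := fun φ => by
        apply Subtype.ext
        apply AlgHom.ext
        intro x
        show τ (τ⁻¹ (φ.1 x)) = φ.1 x
        rw [← AlgEquiv.mul_apply, mul_inv_cancel, AlgEquiv.one_apply] }
  -- the resolvent
  let res : M → Ω := fun β => ∑ φ : I, zp ζ (-(b (ext φ.1))) * φ.1 β
  have hres : ∀ β : M, ∀ τ : Γ, τ ζ = ζ → τ (res β) = zp ζ (b τ) * res β := by
    intro β τ hτ
    show τ (∑ φ : I, zp ζ (-(b (ext φ.1))) * φ.1 β)
      = zp ζ (b τ) * ∑ φ : I, zp ζ (-(b (ext φ.1))) * φ.1 β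
    rw [map_sum, Finset.mul_sum, ← Equiv.sum_comp (e τ hτ)
      (fun φ : I => zp ζ (b τ) * (zp ζ (-(b (ext φ.1))) * φ.1 β))]
    refine Finset.sum_congr rfl fun φ _ => ?_
    have hk : b (ext ((e τ hτ) φ).1) = b τ + b (ext φ.1) := key τ hτ φ
    rw [map_mul, map_zp_of_fix τ hτ, hk, ← mul_assoc, ← zp_add hζp]
    have : b τ + -(b τ + b (ext φ.1)) = -(b (ext φ.1)) := by ring
    rw [this]
    rfl
  -- nonvanishing
  have hne : ∃ β : M, res β ≠ 0 := by
    by_contra hcon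
    have hcon' : ∀ β : M, res β = 0 := fun β => by
      by_contra h
      exact hcon ⟨β, h⟩
    let ι : I → (M →* Ω) := fun φ => (φ.1 : M →+* Ω)
    have hinj : Function.Injective ι := by
      intro φ ψ hφψ
      apply Subtype.ext
      apply AlgHom.ext
      intro x
      exact congrArg (fun f : M →* Ω => f x) hφψ
    have li := (linearIndependent_monoidHom M Ω).comp ι hinj
    have hsum : ∑ φ : I, zp ζ (-(b (ext φ.1))) • ((fun f : M →* Ω => (f : M → Ω)) ∘ ι) φ = 0 := by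
      funext β
      simp only [Finset.sum_apply, Pi.smul_apply, smul_eq_mul, Function.comp_apply,
        Pi.zero_apply]
      exact hcon' β
    have hz := Fintype.linearIndependent_iff.mp li _ hsum ⟨M.val, rfl⟩
    exact zp_ne_zero hζp _ hz
  obtain ⟨β, hβ⟩ := hne
  obtain ⟨m, hm, hint⟩ := exists_int_mul_isIntegral (res β)
  refine ⟨(m : Ω) * res β, mul_ne_zero (by exact_mod_cast hm) hβ, hint, fun τ hτ => ?_⟩
  rw [map_mul, map_intCast, hres β τ hτ]
  ring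

end Core

end Fermat.Agent.S14.H69
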