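/-
S14 package A2 (Kummer generator), helper69.

For an admissible extension `0 → C → V → V/C → 0` (`C` trivial of order `p`, `V/C` cyclotomic)
on which some `σ` fixing `ζ_p` acts nontrivially, there is a Kummer generator `θ ∈ ℚ̄`:
`θ ≠ 0`, integral, `θ^p ∈ ℚ(ζ)`, `θ ∉ ℚ(ζ)`, every `σ` acting trivially on `V` fixes `θ`, and
`σ θ = γ θ^(n²)` with `γ ∈ ℚ(ζ)` when `σ ζ = ζ^n`.

Design: Lagrange resolvent (`Resolvent.lean`); no fixed field of the kernel, no Kummer theory API.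
-/
import Fermat.Prelude.Def_ExtCitation_AdmissibleExtension_v2
import Fermat.Agent.S14.H69.Resolvent

set_option autoImplicit false
set_option linter.unusedSectionVars false

namespace Fermat.Agent.S14.H69

open IntermediateField ExtCitation

local notation "Ω" => AlgebraicClosure ℚ
local notation "Γ" => (AlgebraicClosure ℚ ≃ₐ[ℚ] AlgebraicClosure ℚ)

variable {p : ℕ} [Fact p.Prime]

section Cyclo

variable {ζ : Ω}

/-- The defining property of `cycloExp`. -/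
theorem map_zeta (hζ : IsPrimitiveRoot ζ p) (σ : Γ) : σ ζ = ζ ^ cycloExp p σ := by
  have : NeZero p := ⟨(Fact.out : p.Prime).ne_zero⟩
  have hu : IsUnit ζ := hζ.isUnit (NeZero.ne p)
  have ht : hu.unit ∈ rootsOfUnity p Ω := by
    rw [mem_rootsOfUnity]
    ext
    simp [hζ.pow_eq_one]
  have := modularCyclotomicCharacter.spec Ω (card_rootsOfUnity_eq_self p) (σ : Ω ≃+* Ω) ht
  unfold cycloExp
  simpa using this

theorem cycloExp_lt (σ : Γ) : cycloExp p σ < p := by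
  have : NeZero p := ⟨(Fact.out : p.Prime).ne_zero⟩
  unfold cycloExp
  exact ZMod.val_lt _

theorem map_zeta_eq_self_iff (hζ : IsPrimitiveRoot ζ p) (σ : Γ) : σ ζ = ζ ↔ cycloExp p σ = 1 := by
  rw [map_zeta hζ σ]
  constructor
  · intro h
    have h1 : ζ ^ cycloExp p σ = ζ ^ 1 := by rw [h, pow_one]
    exact hζ.pow_inj (cycloExp_lt σ) (Fact.out : p.Prime).one_lt h1
  · intro h
    rw [h, pow_one]

/-- Elements of `ℚ(ζ)` are fixed by every automorphism fixing `ζ`. -/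
theorem map_eq_of_mem_adjoin (τ : Γ) (hτ : τ ζ = ζ) {x : Ω} (hx : x ∈ ℚ⟮ζ⟯) : τ x = x := by
  induction hx using IntermediateField.adjoin_induction with
  | mem x hx =>
    rw [Set.mem_singleton_iff] at hx
    rw [hx, hτ]
  | algebraMap x => exact τ.commutes x
  | add x y _ _ hx hy => rw [map_add, hx, hy]
  | inv x _ hx => rw [map_inv₀, hx]
  | mul x y _ _ hx hy => rw [map_mul, hx, hy]

/-- Elements fixed by every automorphism fixing `ζ` lie in `ℚ(ζ)`. -/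
theorem mem_adjoin_of_fixed {x : Ω} (hx : ∀ τ : Γ, τ ζ = ζ → τ x = x) : x ∈ ℚ⟮ζ⟯ := by
  have : IsGalois ℚ Ω := isGalois_ratBar
  rw [← InfiniteGalois.fixedField_fixingSubgroup ℚ⟮ζ⟯, IntermediateField.mem_fixedField_iff]
  intro τ hτ
  exact hx τ ((IntermediateField.mem_fixingSubgroup_iff _ τ).mp hτ ζ (mem_adjoin_simple_self ℚ ζ))

end Cyclo

section Main

variable {V : Type} [AddCommGroup V] [Module (ZMod p) V] [DistribMulAction Γ V]
  [SMulCommClass Γ (ZMod p) V] {C : Submodule (ZMod p) V}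

/-- If `c₀ ≠ 0` lies in the submodule `C` of cardinality `p`, every element of `C` is a multiple
of `c₀`. -/
theorem exists_smul_eq_of_card (hcard : Nat.card C = p) {c₀ : V} (hc₀ : c₀ ∈ C) (hne : c₀ ≠ 0)
    {c : V} (hc : c ∈ C) : ∃ k : ZMod p, k • c₀ = c := by
  have : NeZero p := ⟨(Fact.out : p.Prime).ne_zero⟩
  have : Finite C := Nat.finite_of_card_ne_zero (by rw [hcard]; exact (Fact.out : p.Prime).ne_zero)
  let f : ZMod p → C := fun k => ⟨k • c₀, C.smul_mem k hc₀⟩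
  have hinj : Function.Injective f := by
    intro k l hkl
    have h1 : k • c₀ = l • c₀ := congrArg Subtype.val hkl
    have h2 : (k - l) • c₀ = 0 := by rw [sub_smul, h1, sub_self]
    rcases smul_eq_zero.mp h2 with h | h
    · exact sub_eq_zero.mp h
    · exact absurd h hne
  have hsurj : Function.Surjective f := by
    have hfin : Fintype C := Fintype.ofFinite C
    have hcc : Fintype.card (ZMod p) = Fintype.card C := by
      rw [ZMod.card, ← Nat.card_eq_fintype_card, hcard]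
    exact ((Fintype.bijective_iff_injective_and_card f).mpr ⟨hinj, hcc⟩).2
  obtain ⟨k, hk⟩ := hsurj ⟨c, hc⟩
  exact ⟨k, congrArg Subtype.val hk⟩

/-- **A2: the Kummer generator**, strong form: for every primitive root `ζ`, and with the
eigen-relation on `θ` itself (exponent `cycloExp p σ`). -/
theorem exists_kummer_generator_of_primitiveRoot (hadm : IsAdmissibleExtensionCts p V C)
    (hnt : ¬ ∀ σ : Γ, cycloExp p σ = 1 → ∀ x : V, σ • x = x) {ζ : Ω}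
    (hζ : IsPrimitiveRoot ζ p) :
    ∃ θ : Ω, θ ≠ 0 ∧ IsIntegral ℤ θ ∧ θ ^ p ∈ ℚ⟮ζ⟯ ∧ θ ∉ ℚ⟮ζ⟯ ∧
      (∀ σ : Γ, (∀ x : V, σ • x = x) → σ θ = θ) ∧
      (∀ σ : Γ, ∃ γ ∈ ℚ⟮ζ⟯, σ θ = γ * θ ^ (cycloExp p σ ^ 2)) := by
  classical
  have hp : p.Prime := Fact.out
  have : NeZero p := ⟨hp.ne_zero⟩
  have hζp : ζ ^ p = 1 := hζ.pow_eq_one
  have hA := hadm.toIsAdmissibleExtension
  -- the nontrivial element and the basis `c₀` of `C`, `v₀ ∉ C`
  have hnt' : ∃ σ₁ : Γ, cycloExp p σ₁ = 1 ∧ ∃ v₀ : V, σ₁ • v₀ ≠ v₀ := by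
    by_contra hcon
    apply hnt
    intro σ hσ x
    by_contra hx
    exact hcon ⟨σ, hσ, x, hx⟩
  obtain ⟨σ₁, hσ₁, v₀, hv₀⟩ := hnt'
  set c₀ : V := σ₁ • v₀ - v₀ with hc₀def
  have hc₀C : c₀ ∈ C := by
    have := hA.cyclo_quot σ₁ v₀
    rw [hσ₁, Nat.cast_one, one_smul] at this
    exact this
  have hc₀ne : c₀ ≠ 0 := sub_ne_zero.mpr hv₀
  have hv₀C : v₀ ∉ C := fun h => hv₀ (hA.fixed_sub σ₁ v₀ h)
  -- coordinates
  have hcoord : ∀ σ : Γ, ∃ k : ZMod p, k • c₀ = σ • v₀ - (cycloExp p σ : ZMod p) • v₀ :=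
    fun σ => exists_smul_eq_of_card hA.card_sub hc₀C hc₀ne (hA.cyclo_quot σ v₀)
  choose b hb using hcoord
  have hb' : ∀ σ : Γ, σ • v₀ = (cycloExp p σ : ZMod p) • v₀ + b σ • c₀ := fun σ => by
    rw [hb σ]; abel
  have hb1 : ∀ σ : Γ, σ ζ = ζ → σ • v₀ = v₀ + b σ • c₀ := fun σ hσ => by
    have h := hb' σ
    rw [(map_zeta_eq_self_iff hζ σ).mp hσ, Nat.cast_one, one_smul] at h
    exact h
  have huniq : ∀ k l : ZMod p, k • c₀ = l • c₀ → k = l := by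
    intro k l hkl
    have h2 : (k - l) • c₀ = 0 := by rw [sub_smul, hkl, sub_self]
    rcases smul_eq_zero.mp h2 with h | h
    · exact sub_eq_zero.mp h
    · exact absurd h hc₀ne
  have hfixc : ∀ σ : Γ, σ • c₀ = c₀ := fun σ => hA.fixed_sub σ c₀ hc₀C
  -- additivity on the stabiliser of `ζ`
  have hadd : ∀ σ τ : Γ, σ ζ = ζ → τ ζ = ζ → b (σ * τ) = b σ + b τ := by
    intro σ τ hσ hτ
    have hστ : (σ * τ) ζ = ζ := by rw [AlgEquiv.mul_apply, hτ, hσ]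
    apply huniq
    have h1 := hb1 (σ * τ) hστ
    rw [mul_smul, hb1 τ hτ, smul_add, smul_comm σ (b τ) c₀, hfixc, hb1 σ hσ] at h1
    have h2 : b (σ * τ) • c₀ = b σ • c₀ + b τ • c₀ := by
      have := add_left_cancel (a := v₀) (b := b σ • c₀ + b τ • c₀) (c := b (σ * τ) • c₀)
        (by rw [← h1]; abel)
      exact this.symm
    rw [h2, add_smul]
  -- `b σ₁ = 1`
  have hbσ₁ : b σ₁ = 1 := by
    apply huniq
    rw [hb σ₁, hσ₁, Nat.cast_one, one_smul, one_smul]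
  -- trivial action implies `σ ζ = ζ` and `b σ = 0`
  have htriv : ∀ σ : Γ, σ • v₀ = v₀ → σ ζ = ζ ∧ b σ = 0 := by
    intro σ hσ
    have h1 : (1 - (cycloExp p σ : ZMod p)) • v₀ ∈ C := by
      have := hA.cyclo_quot σ v₀
      rw [hσ] at this
      rw [sub_smul, one_smul]
      exact this
    have h2 : (1 - (cycloExp p σ : ZMod p)) = 0 := by
      by_contra hne
      apply hv₀C
      have := C.smul_mem (1 - (cycloExp p σ : ZMod p))⁻¹ h1
      rwa [smul_smul, inv_mul_cancel₀ hne, one_smul] at this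
    have h3 : ((cycloExp p σ : ℕ) : ZMod p) = ((1 : ℕ) : ZMod p) := by
      rw [Nat.cast_one]
      exact (sub_eq_zero.mp h2).symm
    have h4 : cycloExp p σ = 1 := by
      have h5 := (ZMod.natCast_eq_natCast_iff' _ _ p).mp h3
      rwa [Nat.mod_eq_of_lt (cycloExp_lt σ), Nat.mod_eq_of_lt hp.one_lt] at h5
    have hσζ : σ ζ = ζ := (map_zeta_eq_self_iff hζ σ).mpr h4
    refine ⟨hσζ, ?_⟩
    apply huniq
    have h6 := hb1 σ hσζ
    rw [hσ] at h6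
    have h7 : b σ • c₀ = 0 := by
      have := add_left_cancel (a := v₀) (b := b σ • c₀) (c := 0) (by rw [← h6, add_zero])
      exact this
    rw [h7, zero_smul]
  -- the finite-dimensional field `M`
  have hopen := hadm.open_kernel
  have hnhds : {σ : Γ | ∀ v : V, σ • v = v} ∈ nhds (1 : Γ) :=
    hopen.mem_nhds (by intro v; exact one_smul _ v)
  obtain ⟨E, hEfin, hE⟩ := (krullTopology_mem_nhds_one_iff ℚ Ω _).mp hnhds
  have : Algebra.IsAlgebraic ℚ Ω := isAlgebraic_ratBar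
  have hζint : IsIntegral ℚ ζ := Algebra.IsIntegral.isIntegral ζ
  have : FiniteDimensional ℚ ℚ⟮ζ⟯ := IntermediateField.adjoin.finiteDimensional hζint
  have hζM : ζ ∈ E ⊔ ℚ⟮ζ⟯ := (le_sup_right : ℚ⟮ζ⟯ ≤ E ⊔ ℚ⟮ζ⟯) (mem_adjoin_simple_self ℚ ζ)
  have hM : ∀ σ : Γ, (∀ x : (E ⊔ ℚ⟮ζ⟯ : IntermediateField ℚ Ω), σ x = x) → b σ = 0 := by
    intro σ hσ
    have hσE : σ ∈ E.fixingSubgroup := by
      rw [IntermediateField.mem_fixingSubgroup_iff]
      intro x hx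
      exact hσ ⟨x, (le_sup_left : E ≤ E ⊔ ℚ⟮ζ⟯) hx⟩
    exact (htriv σ (hE hσE v₀)).2
  obtain ⟨θ, hθ0, hθint, hθ⟩ := exists_resolvent hζ b hadd (E ⊔ ℚ⟮ζ⟯) hζM hM
  refine ⟨θ, hθ0, hθint, ?_, ?_, ?_, ?_⟩
  · -- `θ ^ p ∈ ℚ(ζ)`
    apply mem_adjoin_of_fixed
    intro τ hτ
    rw [map_pow, hθ τ hτ, mul_pow, zp_pow_p hζp, one_mul]
  · -- `θ ∉ ℚ(ζ)`
    intro hmem
    have hσ₁ζ : σ₁ ζ = ζ := (map_zeta_eq_self_iff hζ σ₁).mpr hσ₁
    have h1 := map_eq_of_mem_adjoin σ₁ hσ₁ζ hmem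
    rw [hθ σ₁ hσ₁ζ] at h1
    have h2 : zp ζ (b σ₁) = 1 := by
      have := mul_right_cancel₀ hθ0 (h1.trans (one_mul θ).symm)
      exact this
    rw [zp_eq_one_iff hζ, hbσ₁] at h2
    exact one_ne_zero h2
  · -- trivial action fixes `θ`
    intro σ hσ
    obtain ⟨hσζ, hbσ⟩ := htriv σ (hσ v₀)
    rw [hθ σ hσζ, hbσ, zp_zero, one_mul]
  · -- eigen-relation
    intro σ
    set n := cycloExp p σ with hn
    have hσζ : σ ζ = ζ ^ n := map_zeta hζ σ
    have hpow0 : θ ^ (n ^ 2) ≠ 0 := pow_ne_zero _ hθ0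
    refine ⟨σ θ / θ ^ (n ^ 2), ?_, by field_simp⟩
    apply mem_adjoin_of_fixed
    intro τ hτ
    -- `ρ = σ⁻¹ τ σ` fixes `ζ`
    have hρζ : (σ⁻¹ * τ * σ) ζ = ζ := by
      rw [AlgEquiv.mul_apply, AlgEquiv.mul_apply, hσζ, map_pow, hτ, ← hσζ, ← AlgEquiv.mul_apply,
        inv_mul_cancel, AlgEquiv.one_apply]
    -- `b ρ = n * b τ`
    have hbρ : b (σ⁻¹ * τ * σ) = (n : ZMod p) * b τ := by
      apply huniq
      have h1 := hb1 (σ⁻¹ * τ * σ) hρζ
      have hσv : σ • v₀ = (n : ZMod p) • v₀ + b σ • c₀ := hb' σ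
      have hτσv : τ • σ • v₀ = σ • v₀ + ((n : ZMod p) * b τ) • c₀ := by
        rw [hσv, smul_add, smul_comm τ (n : ZMod p) v₀, smul_comm τ (b σ) c₀, hfixc, hb1 τ hτ,
          smul_add, smul_smul]
        abel
      have h2 : (σ⁻¹ * τ * σ) • v₀ = v₀ + ((n : ZMod p) * b τ) • c₀ := by
        rw [mul_smul, mul_smul, hτσv, smul_add, smul_comm σ⁻¹ _ c₀, hfixc, inv_smul_smul]
      rw [h2] at h1
      exact (add_left_cancel h1).symm
    have hτσ : τ (σ θ) = zp ζ ((n : ZMod p) * ((n : ZMod p) * b τ)) * σ θ := by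
      have h1 : τ (σ θ) = σ ((σ⁻¹ * τ * σ) θ) := by
        rw [← AlgEquiv.mul_apply, ← AlgEquiv.mul_apply]
        congr 1
        group
      rw [h1, hθ _ hρζ, map_mul, map_zp hζp σ n hσζ, hbρ]
    have hτpow : τ (θ ^ (n ^ 2)) = zp ζ ((n : ZMod p) * ((n : ZMod p) * b τ)) * θ ^ (n ^ 2) := by
      rw [map_pow, hθ τ hτ, mul_pow, zp_pow hζp]
      congr 2
      push_cast
      ring
    rw [map_div₀, hτσ, hτpow, mul_div_mul_left _ _ (zp_ne_zero hζp _)]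

/-- For `A` over `p`: elements of the decomposition group that fix `ζ` act trivially on `V`. -/
theorem smul_eq_of_mem_decomposition (hadm : IsAdmissibleExtensionCts p V C)
    (A : ValuationSubring Ω) (hA : A.LiesOverPrime p) (σ : Γ)
    (hσ : σ ∈ A.decompositionSubgroup ℚ) (hσ1 : cycloExp p σ = 1) (x : V) : σ • x = x := by
  obtain ⟨C', hC', hcompl⟩ := hadm.toIsAdmissibleExtension.locally_split A hA
  have hx : x ∈ C ⊔ C' := by rw [hcompl.sup_eq_top]; exact Submodule.mem_top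
  obtain ⟨c, hc, c', hc', rfl⟩ := Submodule.mem_sup.mp hx
  have h1 : σ • c = c := hadm.toIsAdmissibleExtension.fixed_sub σ c hc
  have h2 : σ • c' - c' ∈ C := by
    have := hadm.toIsAdmissibleExtension.cyclo_quot σ c'
    rwa [hσ1, Nat.cast_one, one_smul] at this
  have h3 : σ • c' - c' ∈ C' := C'.sub_mem (hC' σ hσ c' hc') hc'
  have h4 : σ • c' - c' = 0 := by
    have : σ • c' - c' ∈ C ⊓ C' := ⟨h2, h3⟩
    rwa [hcompl.inf_eq_bot, Submodule.mem_bot] at this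
  rw [smul_add, h1, sub_eq_zero.mp h4]

/-- **A2** (Kummer generator), verbatim the statement of the S14 skeleton. -/
theorem exists_kummer_generator (hp : 3 ≤ p) (C : Submodule (ZMod p) V)
    (h : IsAdmissibleExtensionCts p V C)
    (hnt : ∃ σ : Γ, cycloExp p σ = 1 ∧ ∃ v : V, σ • v ≠ v) :
    ∃ (ζ θ : Ω), IsPrimitiveRoot ζ p ∧ θ ≠ 0 ∧ IsIntegral ℤ θ ∧ θ ^ p ∈ ℚ⟮ζ⟯ ∧ θ ∉ ℚ⟮ζ⟯ ∧
      (∀ σ : Γ, (∀ v : V, σ • v = v) → σ θ = θ) ∧
      (∀ (σ : Γ) (n : ℕ), σ ζ = ζ ^ n →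
        ∃ γ ∈ ℚ⟮ζ⟯, σ (θ ^ p) = γ ^ p * (θ ^ p) ^ (n ^ 2)) := by
  have hpp : p.Prime := Fact.out
  have : NeZero (p : Ω) := ⟨Nat.cast_ne_zero.mpr hpp.ne_zero⟩
  obtain ⟨ζ, hζ⟩ := HasEnoughRootsOfUnity.exists_primitiveRoot Ω p
  have hnt' : ¬ ∀ σ : Γ, cycloExp p σ = 1 → ∀ x : V, σ • x = x := by
    intro hall
    obtain ⟨σ, hσ, v, hv⟩ := hnt
    exact hv (hall σ hσ v)
  obtain ⟨θ, hθ0, hθint, hθp, hθn, hθfix, hθeig⟩ :=
    exists_kummer_generator_of_primitiveRoot h hnt' hζ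
  refine ⟨ζ, θ, hζ, hθ0, hθint, hθp, hθn, hθfix, ?_⟩
  intro σ n hσn
  obtain ⟨γ₀, hγ₀, hσθ⟩ := hθeig σ
  set n₀ := cycloExp p σ with hn₀
  have hζp : ζ ^ p = 1 := hζ.pow_eq_one
  -- `n ≡ n₀ mod p`
  have hmod : n % p = n₀ := by
    have h1 : ζ ^ (n % p) = ζ ^ n₀ := by
      rw [← pow_eq_pow_mod n hζp, ← hσn, map_zeta hζ σ]
    exact hζ.pow_inj (Nat.mod_lt _ hpp.pos) (cycloExp_lt σ) h1
  set q := n / p with hq
  have hn : n = n₀ + p * q := by
    rw [← hmod, hq]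
    exact (Nat.mod_add_div n p).symm
  have hsq : n ^ 2 = n₀ ^ 2 + p * (2 * n₀ * q + p * q ^ 2) := by
    rw [hn]; ring
  have hpow0 : (θ ^ p) ^ (2 * n₀ * q + p * q ^ 2) ≠ 0 := pow_ne_zero _ (pow_ne_zero _ hθ0)
  refine ⟨γ₀ / (θ ^ p) ^ (2 * n₀ * q + p * q ^ 2),
    div_mem hγ₀ (pow_mem hθp _), ?_⟩
  rw [map_pow, hσθ, hsq, div_pow, mul_pow, pow_add]
  field_simp
  ring

end Main

end Fermat.Agent.S14.H69
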